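import Fermat.Agent.S55.G.Rec.Tow.Spec
import Fermat.Agent.S55.G.DescH773.Main

/-!
# S55 / layer G / block REC / adapter TOW, leaf DESC-TOW (helper181)

`desc : DescSpec` — the Tower form of Galois descent for the `S`-idèle class module: for levels
`L ≤ M` of `S ≠ ∅` there is a transition map `C_S(L) → C_S(M)`, equivariant along
`Gal(M/ℚ) → Gal(L/ℚ)`, injective, whose image is the module of invariants of `Gal(M/L)`.

From `G.DescH773.descentSpec : G.DescentSpec` applied to `G = M.Gal`, `N = Level.relGal h`,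
`L' = L.F` with the action of `G ⧸ N` through `levelQuotHom h` (helper594's `LevelProj`).
-/

set_option autoImplicit false
set_option linter.style.haveILetI false

open CategoryTheory groupCohomology
open scoped NumberField

noncomputable section

namespace Fermat.Agent.S55.G.Rec.TOW.H181

open Fermat.Agent.S55 Fermat.Agent.S55.Tow Fermat.Agent.S55.E1.H594
open IsDedekindDomain

variable {S : Finset Nat.Primes} {L M : Level S} (h : L ≤ M)

/-- The action of the quotient `Gal(M/ℚ) ⧸ Gal(M/L)` on `C_S(L)` is the action of `Gal(L/ℚ)`. -/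
lemma cRepr_quot (q : M.Gal ⧸ Level.relGal h) (c : G.CS S L.F) :
    letI := levelQuotAction h
    G.cRepr S (M.Gal ⧸ Level.relGal h) L.F q c = G.cRepr S L.Gal L.F (levelQuotHom h q) c :=
  rfl

/-- Descent data for `L ≤ M` in additive form. -/
lemma exists_descent_add (hS : S.Nonempty) :
    ∃ ι : G.CS S L.F →+ G.CS S M.F, Function.Injective ι ∧
      (∀ (g : M.Gal) (c : G.CS S L.F),
        ι (G.cRepr S L.Gal L.F (Level.proj h g) c) = G.cRepr S M.Gal M.F g (ι c)) ∧
      (∀ c : G.CS S M.F, (∀ n ∈ (Level.proj h).ker, G.cRepr S M.Gal M.F n c = c) →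
        c ∈ Set.range ι) := by
  letI := levelAlgebra h
  letI := levelQuotAction h
  obtain ⟨ι, hinj, heq, hfix, -⟩ := G.DescH773.descentSpec S M.Gal M.F L.F (Level.relGal h) hS
    (level_isUnramOut M) (level_descent_fixed h) (level_descent_equivariant h)
  refine ⟨ι, hinj, fun g c => ?_, fun c hc => ?_⟩
  · exact heq g c
  · exact (hfix c).1 (fun n => hc (n : M.Gal) n.2)

/-- **DESC-TOW.** -/
theorem desc : DescSpec := by
  intro S hS L M h
  obtain ⟨ι, hinj, heq, hfix⟩ := exists_descent_add h hS
  refine ⟨Rep.ofHom ⟨ι.toIntLinearMap, fun g => LinearMap.ext fun c => heq g c⟩, hinj, ?_⟩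
  intro c hc
  exact hfix c hc

end Fermat.Agent.S55.G.Rec.TOW.H181
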